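import Mathlib.Data.Nat.Log
import Mathlib.Data.Finset.Card
import Mathlib.Algebra.BigOperators.Group.Finset.Basic
import Mathlib.Algebra.BigOperators.Ring.Finset
import Mathlib.Algebra.Order.BigOperators.Group.Finset
import Mathlib.Data.Int.GCD
import Mathlib.Data.Nat.ModEq
import Mathlib.Algebra.GroupWithZero.Defs
import Mathlib.Tactic.Ring
import Mathlib.Tactic.Linarith

/-!
# Subset sums of a band of monomials `p ^ a * q ^ b`

For coprime `p, q ≥ 2` some `K` makes the monomials with `b < K` so dense (one in every `(n/2, n]`)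
that their subset sums have bounded gaps. Two bands, scaled by `q ^ B` and by `p ^ A`, then give so
many subset sums avoiding a given finite set that two of them differ by a bounded amount.
-/

set_option autoImplicit false

namespace FA.BirchComplete

open Finset

/-- The monomials `p ^ a * q ^ b`. -/
def monomials (p q : ℕ) : Set ℕ := {x | ∃ a b, x = p ^ a * q ^ b}

/-- The monomials `p ^ a * q ^ b` with `b < K`. -/
def band (p q K : ℕ) : Set ℕ := {x | ∃ a b, b < K ∧ x = p ^ a * q ^ b}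

theorem band_subset (p q K : ℕ) : band p q K ⊆ monomials p q :=
  fun _ ⟨a, b, _, h⟩ => ⟨a, b, h⟩

theorem monomial_unique {p q : ℕ} (hp : 1 < p) (hq : 1 < q) (hpq : Nat.Coprime p q) {a b a' b' : ℕ}
    (h : p ^ a * q ^ b = p ^ a' * q ^ b') : a = a' ∧ b = b' := by
  have key : ∀ {a b a' b' : ℕ}, p ^ a * q ^ b = p ^ a' * q ^ b' → b ≤ b' → b = b' := by
    intro a b a' b' h hb
    obtain ⟨d, rfl⟩ := Nat.exists_eq_add_of_le hb
    have h' : p ^ a = p ^ a' * q ^ d := by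
      refine Nat.eq_of_mul_eq_mul_right (pow_pos (by omega : 0 < q) b) ?_
      rw [h, pow_add]; ring
    have h1 : q ^ d ∣ p ^ a := ⟨p ^ a', by rw [h']; ring⟩
    have h2 : q ^ d = 1 := (Nat.Coprime.pow d a hpq.symm).eq_one_of_dvd h1
    rcases Nat.pow_eq_one.1 h2 with h3 | h3 <;> omega
  have hb : b = b' := by
    rcases le_total b b' with h1 | h1
    · exact key h h1
    · exact (key h.symm h1).symm
  subst hb
  exact ⟨Nat.pow_right_injective hp
    (Nat.eq_of_mul_eq_mul_right (pow_pos (by omega : 0 < q) b) h), rfl⟩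

/-- Powers of two coprime bases come within a factor two of each other. -/
theorem exists_close_powers {p q : ℕ} (hp : 1 < p) (hq : 1 < q) (hpq : Nat.Coprime p q) :
    ∃ d e : ℕ, q ^ d ≠ p ^ e ∧ q ^ d < 2 * p ^ e ∧ p ^ e < 2 * q ^ d := by
  obtain ⟨j, -, j', -, hne, heq⟩ := exists_ne_map_eq_of_card_lt_of_maps_to
    (s := range (p + 1)) (t := range p) (f := fun j => q ^ j / p ^ Nat.log p (q ^ j)) (by simp)
    (fun j _ => by
      simp only [coe_range, Set.mem_Iio]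
      rw [Nat.div_lt_iff_lt_mul (pow_pos (by omega : 0 < p) _)]
      have := Nat.lt_pow_succ_log_self hp (q ^ j)
      rwa [pow_succ'] at this)
  wlog hlt : j < j' generalizing j j' with H
  · exact H j' j hne.symm heq.symm (by omega)
  obtain ⟨d, rfl⟩ := Nat.exists_eq_add_of_le hlt.le
  have hd : d ≠ 0 := by omega
  have hmono : Nat.log p (q ^ j) ≤ Nat.log p (q ^ (j + d)) :=
    Nat.log_mono_right (Nat.pow_le_pow_right (by omega) (by omega))
  obtain ⟨e, he⟩ := Nat.exists_eq_add_of_le hmono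
  obtain ⟨i, hi⟩ : ∃ i, i = Nat.log p (q ^ j) := ⟨_, rfl⟩
  rw [← hi] at he
  obtain ⟨m, hm⟩ : ∃ m, m = q ^ j / p ^ i := ⟨_, rfl⟩
  have hP : 0 < p ^ i := pow_pos (by omega) _
  have hm1 : 1 ≤ m := by
    rw [hm, Nat.one_le_div_iff hP, hi]
    exact Nat.pow_log_le_self _ (pow_ne_zero _ (by omega))
  have hm' : m = q ^ (j + d) / p ^ (i + e) := by
    rw [hm, ← he, hi]; exact heq
  have h1 : m * p ^ i ≤ q ^ j := hm ▸ Nat.div_mul_le_self _ _
  have h2 : q ^ j < (m + 1) * p ^ i := hm ▸ Nat.lt_mul_of_div_lt (Nat.lt_succ_self _) hP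
  have h3 : m * (p ^ i * p ^ e) ≤ q ^ j * q ^ d := by
    rw [hm', ← pow_add, ← pow_add]; exact Nat.div_mul_le_self _ _
  have h4 : q ^ j * q ^ d < (m + 1) * (p ^ i * p ^ e) := by
    rw [hm', ← pow_add, ← pow_add]
    exact Nat.lt_mul_of_div_lt (Nat.lt_succ_self _) (pow_pos (by omega) _)
  refine ⟨d, e, fun h => ?_, ?_, ?_⟩
  · have := (monomial_unique hp hq hpq (a := 0) (b := d) (a' := e) (b' := 0) (by simpa using h)).2
    exact hd this
  · refine Nat.lt_of_mul_lt_mul_left (a := q ^ j) (h4.trans_le ?_)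
    calc (m + 1) * (p ^ i * p ^ e) ≤ (2 * m) * (p ^ i * p ^ e) :=
          Nat.mul_le_mul_right _ (by omega)
      _ = 2 * (m * p ^ i) * p ^ e := by ring
      _ ≤ 2 * q ^ j * p ^ e := by gcongr
      _ = q ^ j * (2 * p ^ e) := by ring
  · refine Nat.lt_of_mul_lt_mul_left (a := m * p ^ i) ?_
    calc m * p ^ i * p ^ e = m * (p ^ i * p ^ e) := by ring
      _ ≤ q ^ j * q ^ d := h3
      _ < (m + 1) * p ^ i * q ^ d := by
          exact Nat.mul_lt_mul_of_pos_right h2 (pow_pos (by omega) _)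
      _ ≤ (2 * m) * p ^ i * q ^ d := by gcongr; omega
      _ = m * p ^ i * (2 * q ^ d) := by ring

theorem succ_pow_bound (v k : ℕ) : v ^ k * (v + k) ≤ v * (v + 1) ^ k := by
  induction k with
  | zero => simp
  | succ k ih =>
    calc v ^ (k + 1) * (v + (k + 1)) ≤ v ^ k * (v + k) * (v + 1) := by
          rw [pow_succ, mul_assoc, mul_assoc]
          exact Nat.mul_le_mul_left _ (by ring_nf; omega)
      _ ≤ v * (v + 1) ^ k * (v + 1) := Nat.mul_le_mul_right _ ih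
      _ = v * (v + 1) ^ (k + 1) := by ring

/-- Every `(n/2, n]` contains a monomial `p ^ a * u ^ t * v ^ (k - t)`. -/
theorem exists_chain {p u v : ℕ} (hp : 1 < p) (hv : 0 < v) (huv : v < u) (huv2 : u < 2 * v) :
    ∃ k n₀ : ℕ, ∀ n, n₀ ≤ n → ∃ a, ∃ t ≤ k,
      p ^ a * u ^ t * v ^ (k - t) ≤ n ∧ n < 2 * (p ^ a * u ^ t * v ^ (k - t)) := by
  obtain ⟨k, hk⟩ : ∃ k, k = p * v := ⟨_, rfl⟩
  have hbig : p * v ^ k ≤ u ^ k := by
    refine Nat.le_of_mul_le_mul_left ?_ hv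
    calc v * (p * v ^ k) ≤ v ^ k * (v + k) := by
          rw [mul_add, hk]; nlinarith [Nat.zero_le (v ^ (p * v) * v)]
      _ ≤ v * (v + 1) ^ k := succ_pow_bound v k
      _ ≤ v * u ^ k := Nat.mul_le_mul_left _ (Nat.pow_le_pow_left (by omega) k)
  refine ⟨k, v ^ k, fun n hn => ?_⟩
  have hV : 0 < v ^ k := pow_pos hv k
  have hm : n / v ^ k ≠ 0 := (Nat.div_pos hn hV).ne'
  obtain ⟨a, ha⟩ : ∃ a, a = Nat.log p (n / v ^ k) := ⟨_, rfl⟩
  obtain ⟨y, hy⟩ : ∃ y : ℕ → ℕ, y = fun t => p ^ a * u ^ t * v ^ (k - t) := ⟨_, rfl⟩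
  have h0 : y 0 ≤ n := by
    simp only [hy, pow_zero, mul_one, Nat.sub_zero, ha]
    exact (Nat.mul_le_mul_right _ (Nat.pow_log_le_self p hm)).trans (Nat.div_mul_le_self _ _)
  have hlast : n < y k := by
    simp only [hy, Nat.sub_self, pow_zero, mul_one]
    have h1 : n < p ^ (a + 1) * v ^ k :=
      (Nat.div_lt_iff_lt_mul hV).1 (ha ▸ Nat.lt_pow_succ_log_self hp _)
    calc n < p ^ a * (p * v ^ k) := by rwa [pow_succ, mul_assoc] at h1
      _ ≤ p ^ a * u ^ k := Nat.mul_le_mul_left _ hbig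
  have hex : ∃ t, n < y t := ⟨k, hlast⟩
  have hle : Nat.find hex ≤ k := Nat.find_le hlast
  rcases Nat.eq_zero_or_pos (Nat.find hex) with h | h
  · exact absurd (h ▸ Nat.find_spec hex) (by omega)
  obtain ⟨t, ht⟩ := Nat.exists_eq_succ_of_ne_zero h.ne'
  have hyt : y t ≤ n := not_lt.1 (Nat.find_min hex (by omega))
  have hyt1 : n < y (t + 1) := by
    have := Nat.find_spec hex
    rwa [ht] at this
  refine ⟨a, t, by omega, by simpa [hy] using hyt, hyt1.trans_le ?_⟩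
  have hsub : k - t = k - (t + 1) + 1 := by omega
  simp only [hy]
  rw [hsub, pow_succ u, pow_succ v]
  calc p ^ a * (u ^ t * u) * v ^ (k - (t + 1))
      ≤ p ^ a * (u ^ t * (2 * v)) * v ^ (k - (t + 1)) := by gcongr
    _ = 2 * (p ^ a * u ^ t * (v ^ (k - (t + 1)) * v)) := by ring

theorem exists_band_half {p q : ℕ} (hp : 1 < p) (hq : 1 < q) (hpq : Nat.Coprime p q) :
    ∃ K n₀, ∀ n, n₀ ≤ n → ∃ x ∈ band p q K, x ≤ n ∧ n < 2 * x := by
  obtain ⟨d, e, hne, h1, h2⟩ := exists_close_powers hp hq hpq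
  rcases lt_or_gt_of_ne hne with hlt | hlt
  · obtain ⟨k, n₀, hc⟩ := exists_chain hp (pow_pos (by omega : 0 < q) d) hlt h2
    refine ⟨d * k + 1, n₀, fun n hn => ?_⟩
    obtain ⟨a, t, -, hle, hgt⟩ := hc n hn
    refine ⟨_, ⟨a + e * t, d * (k - t), ?_, ?_⟩, hle, hgt⟩
    · exact Nat.lt_succ_of_le (Nat.mul_le_mul_left _ (Nat.sub_le k t))
    · rw [pow_add, pow_mul, pow_mul]
  · obtain ⟨k, n₀, hc⟩ := exists_chain hp (pow_pos (by omega : 0 < p) e) hlt h1
    refine ⟨d * k + 1, n₀, fun n hn => ?_⟩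
    obtain ⟨a, t, ht, hle, hgt⟩ := hc n hn
    refine ⟨_, ⟨a + e * (k - t), d * t, ?_, ?_⟩, hle, hgt⟩
    · exact Nat.lt_succ_of_le (Nat.mul_le_mul_left _ ht)
    · rw [pow_add, pow_mul, pow_mul]; ring

/-- Subset sums of a band have bounded gaps. -/
theorem exists_band_gaps {p q : ℕ} (hp : 1 < p) (hq : 1 < q) (hpq : Nat.Coprime p q) :
    ∃ K L, 0 < L ∧ ∀ n, ∃ s : Finset ℕ, (∀ x ∈ s, x ∈ band p q K) ∧
      ∑ x ∈ s, x ≤ n ∧ n < ∑ x ∈ s, x + L := by
  obtain ⟨K, n₀, h⟩ := exists_band_half hp hq hpq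
  refine ⟨K, n₀ + 1, Nat.succ_pos _, fun n => ?_⟩
  induction n using Nat.strong_induction_on with
  | _ n ih =>
    rcases lt_or_ge n (n₀ + 1) with hn | hn
    · exact ⟨∅, by simp, by simp, by simpa using hn⟩
    obtain ⟨x, hx, hxn, hnx⟩ := h n (by omega)
    obtain ⟨s, hs, h1, h2⟩ := ih (n - x) (by omega)
    have hxs : x ∉ s := fun hmem => by
      have := single_le_sum (f := fun y => y) (fun y _ => Nat.zero_le y) hmem
      omega
    refine ⟨insert x s, (forall_mem_insert _ _ _).2 ⟨hx, hs⟩, ?_, ?_⟩ <;> rw [sum_insert hxs]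
        <;> omega

/-- `d` is a difference of two disjoint finite sums of monomials outside `F` and outside `S`. -/
def IsDiff (p q : ℕ) (F : Finset ℕ) (S : Set ℕ) (d : ℤ) : Prop :=
  ∃ U V : Finset ℕ, (∀ x ∈ U, x ∈ monomials p q ∧ x ∉ F ∧ x ∉ S) ∧
    (∀ x ∈ V, x ∈ monomials p q ∧ x ∉ F ∧ x ∉ S) ∧ Disjoint U V ∧
      d = (∑ x ∈ U, (x : ℤ)) - ∑ x ∈ V, (x : ℤ)

theorem isDiff_of_sums {p q : ℕ} {F : Finset ℕ} {S : Set ℕ} {U V : Finset ℕ}
    (hU : ∀ x ∈ U, x ∈ monomials p q ∧ x ∉ F ∧ x ∉ S)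
    (hV : ∀ x ∈ V, x ∈ monomials p q ∧ x ∉ F ∧ x ∉ S) :
    IsDiff p q F S ((∑ x ∈ U, (x : ℤ)) - ∑ x ∈ V, (x : ℤ)) :=
  ⟨U \ V, V \ U, fun x hx => hU x (mem_sdiff.1 hx).1, fun x hx => hV x (mem_sdiff.1 hx).1,
    disjoint_sdiff_sdiff, (sum_sdiff_sub_sum_sdiff).symm⟩

theorem IsDiff.neg {p q : ℕ} {F : Finset ℕ} {S : Set ℕ} {d : ℤ} (h : IsDiff p q F S d) :
    IsDiff p q F S (-d) := by
  obtain ⟨U, V, hU, hV, hUV, rfl⟩ := h
  exact ⟨V, U, hV, hU, hUV.symm, neg_sub _ _⟩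

theorem IsDiff.mono {p q : ℕ} {F F' : Finset ℕ} {S : Set ℕ} {d : ℤ} (hF : F ⊆ F')
    (h : IsDiff p q F' S d) : IsDiff p q F S d := by
  obtain ⟨U, V, hU, hV, hUV, rfl⟩ := h
  exact ⟨U, V, fun x hx => ⟨(hU x hx).1, fun h' => (hU x hx).2.1 (hF h'), (hU x hx).2.2⟩,
    fun x hx => ⟨(hV x hx).1, fun h' => (hV x hx).2.1 (hF h'), (hV x hx).2.2⟩, hUV, rfl⟩

theorem exists_pow_gt {p : ℕ} (hp : 1 < p) (n : ℕ) : ∃ A, n < p ^ A :=
  ⟨n, Nat.lt_pow_self hp⟩

/-- Some bounded positive difference avoids any given finite set. -/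
theorem exists_bounded_diff {p q : ℕ} (hp : 1 < p) (hq : 1 < q) (hpq : Nat.Coprime p q) :
    ∃ D : ℕ, ∀ F : Finset ℕ, ∃ d : ℕ, 0 < d ∧ d < D ∧ IsDiff p q F ∅ d := by
  obtain ⟨K, L, hL, hgap⟩ := exists_band_gaps hp hq hpq
  choose σ hσmem hσle hσgt using fun i => hgap ((i + 1) * L - 1)
  obtain ⟨τ, hτ⟩ : ∃ τ : ℕ → ℕ, ∀ i, τ i = ∑ x ∈ σ i, x := ⟨_, fun _ => rfl⟩
  have hlo : ∀ i, i * L ≤ τ i ∧ τ i < (i + 1) * L := fun i => by
    have h1 := hσle i
    have h2 := hσgt i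
    rw [← hτ] at h1 h2
    rw [Nat.succ_mul] at h1 h2 ⊢
    omega
  have hτinj : ∀ i j, τ i = τ j → i = j := fun i j h => by
    by_contra hne
    rcases Nat.lt_or_gt_of_ne hne with h' | h'
    · have := (hlo i).2.trans_le ((Nat.mul_le_mul_right L h').trans (hlo j).1)
      omega
    · have := (hlo j).2.trans_le ((Nat.mul_le_mul_right L h').trans (hlo i).1)
      omega
  refine ⟨4 * L * (L + 1), fun F => ?_⟩
  obtain ⟨A, hA⟩ := exists_pow_gt hp (F.sup id + 2)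
  obtain ⟨B, hBK, hB⟩ : ∃ B, K ≤ B ∧ F.sup id + L < q ^ B := by
    obtain ⟨B, hB⟩ := exists_pow_gt hq (F.sup id + L)
    exact ⟨K + B, Nat.le_add_right _ _, hB.trans_le (Nat.pow_le_pow_right (by omega) (by omega))⟩
  obtain ⟨P, hP⟩ : ∃ P, P = p ^ A := ⟨_, rfl⟩
  obtain ⟨Q, hQ⟩ : ∃ Q, Q = q ^ B := ⟨_, rfl⟩
  rw [← hP] at hA; rw [← hQ] at hB
  obtain ⟨Y, hY⟩ : ∃ Y, Y = Q / L := ⟨_, rfl⟩
  have hY1 : 1 ≤ Y := hY ▸ (Nat.one_le_div_iff hL).2 (by omega)
  have hYL : Y * L ≤ Q := hY ▸ Nat.div_mul_le_self _ _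
  have hQY : Q < (Y + 1) * L := hY ▸ Nat.lt_mul_of_div_lt (Nat.lt_succ_self _) hL
  have hcop : Nat.Coprime Q P := hP ▸ hQ ▸ Nat.Coprime.pow B A hpq.symm
  obtain ⟨E, hE⟩ : ∃ E, E = 4 * L * (L + 1) := ⟨_, rfl⟩
  have hE0 : 0 < E := by rw [hE]; positivity
  rw [← hE]
  obtain ⟨val, hval⟩ : ∃ val : ℕ × ℕ → ℕ, ∀ z, val z = τ z.1 * Q + τ z.2 * P :=
    ⟨_, fun _ => rfl⟩
  -- the values lie below `(L + 1) * P * Q`
  obtain ⟨R, hR⟩ : ∃ R, R = (L + 1) * (P * Q) := ⟨_, rfl⟩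
  have hrange : ∀ z ∈ range P ×ˢ range Y, val z < R := fun z hz => by
    rw [mem_product, mem_range, mem_range] at hz
    have h1 : τ z.1 ≤ P * L :=
      ((hlo z.1).2.le).trans (Nat.mul_le_mul_right L hz.1)
    have h2 : τ z.2 < Q :=
      (hlo z.2).2.trans_le ((Nat.mul_le_mul_right L hz.2).trans hYL)
    rw [hval, hR]
    calc τ z.1 * Q + τ z.2 * P < P * L * Q + Q * P :=
          add_lt_add_of_le_of_lt (Nat.mul_le_mul_right _ h1)
            (Nat.mul_lt_mul_of_pos_right h2 (by omega))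
      _ = (L + 1) * (P * Q) := by ring
  have hcard : R / E + 1 < P * Y := by
    refine Nat.lt_of_mul_lt_mul_right (a := E) ?_
    have h1 : (R / E + 1) * E ≤ R + E := by
      rw [Nat.succ_mul]; exact Nat.add_le_add_right (Nat.div_mul_le_self _ _) _
    refine h1.trans_lt ?_
    have h2 : Q < 2 * Y * L := hQY.trans_le (Nat.mul_le_mul_right L (by omega))
    have h3 : R < (L + 1) * (P * (2 * Y * L)) := hR ▸ Nat.mul_lt_mul_of_pos_left
      (Nat.mul_lt_mul_of_pos_left h2 (by omega)) (by omega)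
    have h4 : 2 ≤ P * Y := by nlinarith
    have h5 : P * Y * E = 2 * ((L + 1) * (P * (2 * Y * L))) := by rw [hE]; ring
    have h6 : E * 2 ≤ E * (P * Y) := Nat.mul_le_mul_left E h4
    nlinarith
  obtain ⟨z, hz, z', hz', hne, heq⟩ := exists_ne_map_eq_of_card_lt_of_maps_to
    (s := range P ×ˢ range Y) (t := range (R / E + 1)) (f := fun z => val z / E)
    (by rw [card_product, card_range, card_range, card_range]; exact hcard)
    (fun z hz => mem_coe.2 (mem_range.2 (Nat.lt_succ_of_le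
      (Nat.div_le_div_right (hrange z hz).le))))
  have hvne : val z ≠ val z' := fun h => by
    rw [mem_product, mem_range, mem_range] at hz hz'
    have hlt : ∀ {w : ℕ}, w < Y → τ w < Q := fun hw =>
      (hlo _).2.trans_le ((Nat.mul_le_mul_right L hw).trans hYL)
    rw [hval, hval] at h
    have hmod : Nat.ModEq Q (τ z.2 * P) (τ z'.2 * P) := by
      have := congrArg (· % Q) h
      simpa [Nat.ModEq, Nat.mul_add_mod_self_right, Nat.add_mod, Nat.mul_mod_left] using this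
    have h2 : τ z.2 = τ z'.2 :=
      (Nat.ModEq.cancel_right_of_coprime hcop hmod).eq_of_lt_of_lt (hlt hz.2) (hlt hz'.2)
    rw [h2] at h
    have h1 : τ z.1 = τ z'.1 :=
      Nat.eq_of_mul_eq_mul_right (by omega : 0 < Q) (Nat.add_right_cancel h)
    exact hne (Prod.ext (hτinj _ _ h1) (hτinj _ _ h2))
  wlog hlt : val z' < val z generalizing z z' with H
  · exact H z' hz' z hz hne.symm heq.symm hvne.symm (by omega)
  refine ⟨val z - val z', by omega, ?_, ?_⟩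
  · have h1 := Nat.div_mul_le_self (val z') E
    have h2 := Nat.lt_mul_of_div_lt (Nat.lt_succ_self (val z / E)) hE0
    have heq' : val z / E = val z' / E := heq
    rw [heq', Nat.succ_mul] at h2
    omega
  obtain ⟨W, hW⟩ : ∃ W : ℕ × ℕ → Finset ℕ,
      ∀ w, W w = (σ w.1).image (· * Q) ∪ (σ w.2).image (· * P) := ⟨_, fun _ => rfl⟩
  have hWmem : ∀ w, ∀ x ∈ W w, x ∈ monomials p q ∧ x ∉ F ∧ x ∉ (∅ : Set ℕ) := fun w x hx => by
    rw [hW, mem_union, mem_image, mem_image] at hx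
    have hnot : ∀ y, F.sup id < y → y ∉ F := fun y hy hyF =>
      absurd (Finset.le_sup (f := id) hyF) (by simp only [id]; omega)
    rcases hx with ⟨y, hy, rfl⟩ | ⟨y, hy, rfl⟩
    · obtain ⟨a, b, -, rfl⟩ := hσmem _ y hy
      refine ⟨⟨a, b + B, by rw [hQ, pow_add]; ring⟩, hnot _ ?_, id⟩
      have : 0 < p ^ a * q ^ b :=
        mul_pos (pow_pos (by omega) _) (pow_pos (by omega) _)
      have := Nat.le_mul_of_pos_left Q this
      omega
    · obtain ⟨a, b, -, rfl⟩ := hσmem _ y hy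
      refine ⟨⟨a + A, b, by rw [hP, pow_add]; ring⟩, hnot _ ?_, id⟩
      have : 0 < p ^ a * q ^ b :=
        mul_pos (pow_pos (by omega) _) (pow_pos (by omega) _)
      have := Nat.le_mul_of_pos_left P this
      omega
  have hWsum : ∀ w, ∑ x ∈ W w, x = val w := fun w => by
    rw [hW, sum_union ?_, sum_image ?_, sum_image ?_, ← sum_mul, ← sum_mul, hval, hτ, hτ]
    · exact (mul_left_injective₀ (by omega : P ≠ 0)).injOn
    · exact (mul_left_injective₀ (by omega : Q ≠ 0)).injOn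
    · refine disjoint_left.2 fun x hx hx' => ?_
      obtain ⟨y, hy, rfl⟩ := mem_image.1 hx
      obtain ⟨y', hy', he⟩ := mem_image.1 hx'
      obtain ⟨a, b, -, rfl⟩ := hσmem _ y hy
      obtain ⟨a', b', hb', rfl⟩ := hσmem _ y' hy'
      have he' : p ^ (a' + A) * q ^ b' = p ^ a * q ^ (b + B) := by
        rw [pow_add, pow_add, ← hP, ← hQ]; linarith
      have := (monomial_unique hp hq hpq he').2
      omega
  have := isDiff_of_sums (hWmem z) (hWmem z')
  rw [← Nat.cast_sum, ← Nat.cast_sum, hWsum, hWsum, ← Nat.cast_sub hlt.le] at this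
  exact this

end FA.BirchComplete
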