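import Fermat.Agent.BirchComplete.Band
import Mathlib.Data.Finset.Union
import Mathlib.Data.Int.Interval
import Mathlib.Data.Nat.Prime.Basic

/-!
# Birch's theorem: the sequence `p ^ a * q ^ b` is complete

The differences that avoid every finite set form a group. A finite reserve realising a long
progression of such a difference fills the gaps of a scaled band, so the subset sums avoiding any
finite set have gaps at most `D`; adjoining one monomial then forces the group to be all of `ℤ`.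
-/

set_option autoImplicit false

namespace FA.BirchComplete

open Finset

variable {p q : ℕ}

/-- `d` is a difference avoiding every finite set and the set `S`. -/
def IsFreeDiff (p q : ℕ) (S : Set ℕ) (d : ℤ) : Prop :=
  ∀ F : Finset ℕ, IsDiff p q F S d

theorem isFreeDiff_zero (S : Set ℕ) : IsFreeDiff p q S 0 :=
  fun F => ⟨∅, ∅, by simp, by simp, disjoint_empty_left _, by simp⟩

theorem IsFreeDiff.add {S : Set ℕ} {d e : ℤ} (hd : IsFreeDiff p q S d) (he : IsFreeDiff p q S e) :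
    IsFreeDiff p q S (d + e) := fun F => by
  obtain ⟨U, V, hU, hV, hUV, rfl⟩ := hd F
  obtain ⟨U', V', hU', hV', hUV', rfl⟩ := he (F ∪ U ∪ V)
  have hout : ∀ x, x ∉ F ∪ U ∪ V → x ∉ F ∧ x ∉ U ∧ x ∉ V := fun x hx => by
    simpa only [mem_union, not_or, and_assoc] using hx
  have dUU : Disjoint U U' :=
    disjoint_right.2 fun x hx => (hout x (hU' x hx).2.1).2.1
  have dVV : Disjoint V V' :=
    disjoint_right.2 fun x hx => (hout x (hV' x hx).2.1).2.2
  refine ⟨U ∪ U', V ∪ V', fun x hx => ?_, fun x hx => ?_, ?_, ?_⟩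
  · rcases mem_union.1 hx with h | h
    · exact hU x h
    · exact ⟨(hU' x h).1, (hout x (hU' x h).2.1).1, (hU' x h).2.2⟩
  · rcases mem_union.1 hx with h | h
    · exact hV x h
    · exact ⟨(hV' x h).1, (hout x (hV' x h).2.1).1, (hV' x h).2.2⟩
  · rw [disjoint_union_left, disjoint_union_right, disjoint_union_right]
    exact ⟨⟨hUV, disjoint_right.2 fun x hx => (hout x (hV' x hx).2.1).2.1⟩,
      disjoint_left.2 fun x hx => (hout x (hU' x hx).2.1).2.2, hUV'⟩
  · rw [sum_union dUU, sum_union dVV]; ring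

theorem IsFreeDiff.neg {S : Set ℕ} {d : ℤ} (hd : IsFreeDiff p q S d) : IsFreeDiff p q S (-d) :=
  fun F => (hd F).neg

theorem IsFreeDiff.zsmul {S : Set ℕ} {d : ℤ} (hd : IsFreeDiff p q S d) (k : ℤ) :
    IsFreeDiff p q S (k * d) := by
  induction k with
  | zero => simpa using isFreeDiff_zero S
  | succ i ih => simpa [add_mul] using ih.add hd
  | pred i ih => simpa [sub_mul, sub_eq_add_neg, add_mul] using ih.add hd.neg

theorem exists_freeDiff (hp : 1 < p) (hq : 1 < q) (hpq : Nat.Coprime p q) :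
    ∃ d : ℕ, 0 < d ∧ IsFreeDiff p q ∅ d := by
  classical
  obtain ⟨D, hD⟩ := exists_bounded_diff hp hq hpq
  by_contra hcon
  simp only [not_exists, not_and, IsFreeDiff, not_forall] at hcon
  choose Fb hFb using hcon
  obtain ⟨d, hd0, hdD, hd⟩ :=
    hD ((range D).biUnion fun d => if h : 0 < d then Fb d h else ∅)
  refine hFb d hd0 (hd.mono fun x hx => ?_)
  rw [mem_biUnion]
  exact ⟨d, mem_range.2 hdD, by rwa [dif_pos hd0]⟩

theorem IsFreeDiff.scale (hp : 1 < p) (hq : 1 < q) (hpq : Nat.Coprime p q) {d : ℤ}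
    (hd : IsFreeDiff p q ∅ d) (K : ℕ) : IsFreeDiff p q (band p q K) ((q : ℤ) ^ K * d) := fun F => by
  obtain ⟨U, V, hU, hV, hUV, rfl⟩ := hd (range (F.sup id + 1))
  have hmul : ∀ x, x ∈ monomials p q → x ∉ range (F.sup id + 1) →
      q ^ K * x ∈ monomials p q ∧ q ^ K * x ∉ F ∧ q ^ K * x ∉ band p q K := by
    rintro x ⟨a, b, rfl⟩ hx
    rw [mem_range, not_lt] at hx
    refine ⟨⟨a, K + b, by rw [pow_add]; ring⟩, fun h => ?_, ?_⟩
    · have h1 := Finset.le_sup (f := id) h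
      have h2 := Nat.le_mul_of_pos_left (p ^ a * q ^ b) (pow_pos (by omega : 0 < q) K)
      simp only [id] at h1
      omega
    · rintro ⟨a', b', hb', he⟩
      have := (monomial_unique hp hq hpq (a := a) (b := K + b) (a' := a') (b' := b')
        (by rw [← he, pow_add]; ring)).2
      omega
  have hinj : Function.Injective fun x => q ^ K * x :=
    mul_right_injective₀ (pow_ne_zero K (by omega))
  refine ⟨U.image fun x => q ^ K * x, V.image fun x => q ^ K * x, fun x hx => ?_, fun x hx => ?_,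
    (disjoint_image hinj).2 hUV, ?_⟩
  · obtain ⟨y, hy, rfl⟩ := mem_image.1 hx
    exact hmul y (hU y hy).1 (hU y hy).2.1
  · obtain ⟨y, hy, rfl⟩ := mem_image.1 hx
    exact hmul y (hV y hy).1 (hV y hy).2.1
  · rw [sum_image hinj.injOn, sum_image hinj.injOn, mul_sub, mul_sum, mul_sum]
    push_cast
    rfl

/-- Finitely many monomials outside `F` and `S` realise a long progression of difference `d`. -/
theorem exists_reserve {S : Set ℕ} {d : ℕ} (hd : IsFreeDiff p q S d) (F : Finset ℕ) (N : ℕ) :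
    ∃ (R : Finset ℕ) (C : ℕ), (∀ x ∈ R, x ∈ monomials p q ∧ x ∉ F ∧ x ∉ S) ∧
      ∀ k ≤ N, ∃ s ⊆ R, ∑ x ∈ s, x = C + k * d := by
  induction N with
  | zero => exact ⟨∅, 0, by simp, fun k hk => ⟨∅, subset_rfl, by simp [Nat.le_zero.1 hk]⟩⟩
  | succ N ih =>
    obtain ⟨R, C, hR, hC⟩ := ih
    obtain ⟨U, V, hU, hV, -, hdUV⟩ := hd (F ∪ R)
    have hsum : ∑ x ∈ U, x = ∑ x ∈ V, x + d := by
      rw [← Nat.cast_sum, ← Nat.cast_sum] at hdUV
      omega
    have hout : ∀ W : Finset ℕ, (∀ x ∈ W, x ∈ monomials p q ∧ x ∉ F ∪ R ∧ x ∉ S) →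
        ∀ x ∈ W, x ∈ monomials p q ∧ x ∉ F ∧ x ∉ S := fun W hW x hx =>
      ⟨(hW x hx).1, fun h => (hW x hx).2.1 (mem_union_left _ h), (hW x hx).2.2⟩
    have hdisj : ∀ W : Finset ℕ, (∀ x ∈ W, x ∈ monomials p q ∧ x ∉ F ∪ R ∧ x ∉ S) →
        ∀ s ⊆ R, Disjoint s W := fun W hW s hs =>
      disjoint_left.2 fun x hx hxW => (hW x hxW).2.1 (mem_union_right _ (hs hx))
    refine ⟨R ∪ U ∪ V, C + ∑ x ∈ V, x, fun x hx => ?_, fun k hk => ?_⟩
    · rcases mem_union.1 hx with h | h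
      · rcases mem_union.1 h with h | h
        · exact hR x h
        · exact hout U hU x h
      · exact hout V hV x h
    rcases Nat.eq_or_lt_of_le hk with rfl | hk
    · obtain ⟨s, hs, hsC⟩ := hC N le_rfl
      refine ⟨s ∪ U, ?_, ?_⟩
      · exact union_subset (hs.trans (subset_union_left.trans subset_union_left))
          (subset_union_right.trans subset_union_left)
      · rw [sum_union (hdisj U hU s hs), hsC, hsum, Nat.succ_mul]; omega
    · obtain ⟨s, hs, hsC⟩ := hC k (by omega)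
      refine ⟨s ∪ V, ?_, ?_⟩
      · exact union_subset (hs.trans (subset_union_left.trans subset_union_left))
          subset_union_right
      · rw [sum_union (hdisj V hV s hs), hsC]; omega

/-- Subset sums avoiding any finite set have gaps at most `D`, with boundedly many powers of `q`. -/
theorem exists_gaps (hp : 1 < p) (hq : 1 < q) (hpq : Nat.Coprime p q) :
    ∃ D : ℕ, 0 < D ∧ ∀ F : Finset ℕ, ∃ B n₀, ∀ n, n₀ ≤ n → ∃ s : Finset ℕ,
      (∀ x ∈ s, x ∈ band p q B ∧ x ∉ F) ∧ ∑ x ∈ s, x ≤ n ∧ n < ∑ x ∈ s, x + D := by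
  classical
  obtain ⟨K, L, -, hgap⟩ := exists_band_gaps hp hq hpq
  obtain ⟨d, hd0, hd⟩ := exists_freeDiff hp hq hpq
  obtain ⟨D, hD⟩ : ∃ D, D = q ^ K * d := ⟨_, rfl⟩
  have hD0 : 0 < D := hD ▸ mul_pos (pow_pos (by omega) K) hd0
  refine ⟨D, hD0, fun F => ?_⟩
  have hDfree : IsFreeDiff p q (band p q K) (D : ℤ) := by
    simpa [hD] using hd.scale hp hq hpq K
  obtain ⟨A, hA⟩ := exists_pow_gt hp (F.sup id)
  obtain ⟨P, hP⟩ : ∃ P, P = p ^ A := ⟨_, rfl⟩
  rw [← hP] at hA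
  obtain ⟨R, C, hR, hC⟩ := exists_reserve hDfree F (L * P)
  refine ⟨K + R.sup id + 1, C, fun n hn => ?_⟩
  obtain ⟨t, ht, htle, htgt⟩ := hgap ((n - C) / P)
  obtain ⟨w, hw⟩ : ∃ w, w = (∑ x ∈ t, x) * P := ⟨_, rfl⟩
  have hw1 : w ≤ n - C := hw ▸ (Nat.mul_le_mul_right P htle).trans (Nat.div_mul_le_self _ _)
  have hw2 : n - C < w + L * P := by
    rw [hw, ← add_mul]
    exact (Nat.div_lt_iff_lt_mul (by omega : 0 < P)).1 htgt
  obtain ⟨u, hu, huC⟩ := hC ((n - C - w) / D) ((Nat.div_le_self _ _).trans (by omega))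
  have hband : ∀ x ∈ t.image (· * P), x ∈ band p q K ∧ x ∉ F := fun x hx => by
    obtain ⟨y, hy, rfl⟩ := mem_image.1 hx
    obtain ⟨a, b, hb, rfl⟩ := ht y hy
    refine ⟨⟨a + A, b, hb, by rw [hP, pow_add]; ring⟩, fun h => ?_⟩
    have h1 := Finset.le_sup (f := id) h
    have h2 := Nat.le_mul_of_pos_left P
      (mul_pos (pow_pos (by omega : 0 < p) a) (pow_pos (by omega : 0 < q) b))
    simp only [id] at h1
    omega
  refine ⟨t.image (· * P) ∪ u, fun x hx => ?_, ?_⟩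
  · rcases mem_union.1 hx with h | h
    · obtain ⟨⟨a, b, hb, he⟩, hF⟩ := hband x h
      exact ⟨⟨a, b, by omega, he⟩, hF⟩
    · obtain ⟨⟨a, b, he⟩, hF, -⟩ := hR x (hu h)
      refine ⟨⟨a, b, ?_, he⟩, hF⟩
      have h1 : x ≤ R.sup id := Finset.le_sup (f := id) (hu h)
      have h2 : b < q ^ b := Nat.lt_pow_self hq
      have h3 := Nat.le_mul_of_pos_left (q ^ b) (pow_pos (by omega : 0 < p) a)
      omega
  · have hdis : Disjoint (t.image (· * P)) u :=
      disjoint_left.2 fun x hx hx' => (hR x (hu hx')).2.2 (hband x hx).1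
    rw [sum_union hdis, huC, sum_image (mul_left_injective₀ (by omega : P ≠ 0)).injOn, ← sum_mul,
      ← hw]
    have h1 := Nat.div_mul_le_self (n - C - w) D
    have h2 := Nat.lt_mul_of_div_lt (Nat.lt_succ_self ((n - C - w) / D)) hD0
    rw [Nat.succ_mul] at h2
    omega

/-- Every integer is a difference avoiding any given finite set. -/
theorem isFreeDiff_one (hp : 1 < p) (hq : 1 < q) (hpq : Nat.Coprime p q) :
    IsFreeDiff p q ∅ 1 := by
  classical
  obtain ⟨D, hD0, hgaps⟩ := exists_gaps hp hq hpq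
  have hex : ∃ d : ℕ, 0 < d ∧ IsFreeDiff p q ∅ d := exists_freeDiff hp hq hpq
  obtain ⟨d, hdeq⟩ : ∃ d, d = Nat.find hex := ⟨_, rfl⟩
  obtain ⟨hd0, hd⟩ : 0 < d ∧ IsFreeDiff p q ∅ d := hdeq ▸ Nat.find_spec hex
  by_contra hcon
  have hd1 : d ≠ 1 := fun h => hcon (by simpa [h] using hd)
  have hdvd : ∀ e : ℤ, IsFreeDiff p q ∅ e → (d : ℤ) ∣ e := fun e he => by
    by_contra hnd
    have h1 : IsFreeDiff p q ∅ (e % d) := by
      rw [Int.emod_def, sub_eq_add_neg, mul_comm]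
      exact he.add (hd.zsmul _).neg
    have h2 : 0 ≤ e % d := Int.emod_nonneg _ (by omega)
    have h3 : e % d < d := Int.emod_lt_of_pos _ (by omega)
    have h4 : e % d ≠ 0 := fun h => hnd (Int.dvd_of_emod_eq_zero h)
    have := Nat.find_le (h := hex) (n := (e % d).toNat)
      ⟨by omega, by rwa [Int.toNat_of_nonneg h2]⟩
    omega
  -- one finite set kills all short differences outside `dℤ`
  obtain ⟨F₀, hF₀⟩ : ∃ F₀ : Finset ℕ, ∀ e : ℤ, -(D : ℤ) ≤ e → e ≤ D → IsDiff p q F₀ ∅ e →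
      (d : ℤ) ∣ e := by
    have hbad : ∀ e : ℤ, ∃ F : Finset ℕ, IsDiff p q F ∅ e → (d : ℤ) ∣ e := fun e => by
      by_contra h
      simp only [not_exists, Classical.not_imp] at h
      exact (h ∅).2 (hdvd e fun F => (h F).1)
    choose Fb hFb using hbad
    exact ⟨(Finset.Icc (-(D : ℤ)) D).biUnion Fb, fun e h1 h2 he => hFb e (he.mono fun x hx =>
      mem_biUnion.2 ⟨e, mem_Icc.2 ⟨h1, h2⟩, hx⟩)⟩
  -- a monomial outside `F₀` not divisible by `d`
  obtain ⟨s, hs, hsF, hsd⟩ : ∃ s ∈ monomials p q, s ∉ F₀ ∧ ¬d ∣ s := by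
    obtain ⟨l, hl, hld⟩ := Nat.exists_prime_and_dvd hd1
    obtain ⟨A, hA⟩ := exists_pow_gt hp (F₀.sup id)
    obtain ⟨B, hB⟩ := exists_pow_gt hq (F₀.sup id)
    have hnot : ∀ x, F₀.sup id < x → x ∉ F₀ := fun x hx h => by
      have := Finset.le_sup (f := id) h
      simp only [id] at this
      omega
    by_cases hlq : l ∣ q
    · refine ⟨p ^ A, ⟨A, 0, by simp⟩, hnot _ hA, fun h => hl.ne_one ?_⟩
      exact Nat.eq_one_of_dvd_coprimes hpq (hl.dvd_of_dvd_pow (hld.trans h)) hlq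
    · exact ⟨q ^ B, ⟨0, B, by simp⟩, hnot _ hB, fun h => hlq (hl.dvd_of_dvd_pow (hld.trans h))⟩
  obtain ⟨B, n₀, hT⟩ := hgaps (insert s F₀)
  choose! T hTmem hTle hTgt using hT
  obtain ⟨f, hf⟩ : ∃ f : ℕ → ℕ, ∀ n, f n = ∑ x ∈ T n, x := ⟨_, fun _ => rfl⟩
  have hTdiff : ∀ m n, n₀ ≤ m → n₀ ≤ n → IsDiff p q F₀ ∅ ((f m : ℤ) - f n) := fun m n hm hn => by
    have := isDiff_of_sums (p := p) (q := q) (F := F₀) (S := ∅) (U := T m) (V := T n)
      (fun x hx => ⟨band_subset p q B (hTmem m hm x hx).1,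
        fun h => (hTmem m hm x hx).2 (mem_insert_of_mem h), id⟩)
      (fun x hx => ⟨band_subset p q B (hTmem n hn x hx).1,
        fun h => (hTmem n hn x hx).2 (mem_insert_of_mem h), id⟩)
    rwa [← Nat.cast_sum, ← Nat.cast_sum, ← hf, ← hf] at this
  have hbd : ∀ n, n₀ ≤ n → f n ≤ n ∧ n < f n + D := fun n hn =>
    hf n ▸ ⟨hTle n hn, hTgt n hn⟩
  have hconst : ∀ i, (d : ℤ) ∣ (f (n₀ + i) : ℤ) - f n₀ := fun i => by
    induction i with
    | zero => simp
    | succ i ih =>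
      have h1 := hbd (n₀ + i) (by omega)
      have h2 := hbd (n₀ + (i + 1)) (by omega)
      have h3 := hF₀ _ (by omega) (by omega) (hTdiff (n₀ + (i + 1)) (n₀ + i) (by omega) (by omega))
      simpa using h3.add ih
  obtain ⟨n₁, hn₁⟩ : ∃ n₁, n₁ = n₀ + D := ⟨_, rfl⟩
  have h1 := hbd n₁ (by omega)
  obtain ⟨m, hm⟩ : ∃ m, m = f n₁ + s := ⟨_, rfl⟩
  have h2 := hbd m (by omega)
  have hsT : s ∉ T n₁ := fun h => (hTmem n₁ (by omega) s h).2 (mem_insert_self s F₀)
  have hdiff : IsDiff p q F₀ ∅ ((f n₁ + s : ℕ) - (f m : ℤ)) := by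
    have := isDiff_of_sums (p := p) (q := q) (F := F₀) (S := ∅) (U := insert s (T n₁)) (V := T m)
      ((forall_mem_insert _ _ _).2 ⟨⟨hs, hsF, id⟩, fun x hx =>
        ⟨band_subset p q B (hTmem n₁ (by omega) x hx).1,
          fun h => (hTmem n₁ (by omega) x hx).2 (mem_insert_of_mem h), id⟩⟩)
      (fun x hx => ⟨band_subset p q B (hTmem m (by omega) x hx).1,
        fun h => (hTmem m (by omega) x hx).2 (mem_insert_of_mem h), id⟩)
    rw [← Nat.cast_sum, ← Nat.cast_sum, sum_insert hsT, ← hf, ← hf, add_comm s] at this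
    exact this
  have h3 := hF₀ _ (by omega) (by omega) hdiff
  have h4 := hconst (n₁ - n₀)
  have h5 := hconst (m - n₀)
  rw [Nat.add_sub_cancel' (by omega : n₀ ≤ n₁)] at h4
  rw [Nat.add_sub_cancel' (by omega : n₀ ≤ m)] at h5
  refine hsd (Int.natCast_dvd_natCast.1 ?_)
  have := (h3.sub h4).add h5
  push_cast at this
  ring_nf at this
  exact this

/-- **Birch (1959), as sharpened by Davenport**: every large integer is a sum of distinct
`p ^ a * q ^ b` with `b` bounded. -/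
theorem exists_complete (hp : 1 < p) (hq : 1 < q) (hpq : Nat.Coprime p q) :
    ∃ B N, ∀ n, N ≤ n → ∃ s : Finset ℕ, (∀ x ∈ s, x ∈ band p q B) ∧ ∑ x ∈ s, x = n := by
  classical
  obtain ⟨D, hD0, hgaps⟩ := exists_gaps hp hq hpq
  obtain ⟨R, C, hR, hC⟩ := exists_reserve (d := 1) (by simpa using isFreeDiff_one hp hq hpq) ∅ D
  obtain ⟨B, n₀, hT⟩ := hgaps R
  refine ⟨B + R.sup id + 1, C + n₀, fun n hn => ?_⟩
  obtain ⟨t, ht, htle, htgt⟩ := hT (n - C) (by omega)
  obtain ⟨u, hu, huC⟩ := hC (n - C - ∑ x ∈ t, x) (by omega)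
  refine ⟨t ∪ u, fun x hx => ?_, ?_⟩
  · rcases mem_union.1 hx with h | h
    · obtain ⟨a, b, hb, he⟩ := (ht x h).1
      exact ⟨a, b, by omega, he⟩
    · obtain ⟨a, b, he⟩ := (hR x (hu h)).1
      refine ⟨a, b, ?_, he⟩
      have h1 : x ≤ R.sup id := Finset.le_sup (f := id) (hu h)
      have h2 : b < q ^ b := Nat.lt_pow_self hq
      have h3 := Nat.le_mul_of_pos_left (q ^ b) (pow_pos (by omega : 0 < p) a)
      omega
  · rw [sum_union (disjoint_left.2 fun x hx hx' => (ht x hx).2 (hu hx')), huC]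
    omega

end FA.BirchComplete
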