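import Mathlib.Algebra.BigOperators.Ring.Finset
import Mathlib.Algebra.Order.BigOperators.Group.Finset
import Mathlib.Data.Nat.Log
import Mathlib.Tactic.Ring
import Mathlib.Tactic.Positivity

/-!
# Sums of `2 ^ a * 3 ^ b`, none dividing another

The argument of Erdős and Jansen–Selfridge: halve an even number; from an odd one subtract the
largest power of `3`, which leaves an even number below twice that power.
-/

set_option autoImplicit false

namespace FA.BirchComplete

open Finset

theorem exists_antichain (n : ℕ) :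
    ∃ s : Finset ℕ, (∀ x ∈ s, ∃ a b, x = 2 ^ a * 3 ^ b) ∧
      (∀ x ∈ s, ∀ y ∈ s, x ∣ y → x = y) ∧ ∑ x ∈ s, x = n := by
  induction n using Nat.strong_induction_on with
  | _ n ih =>
    have hinj : Function.Injective fun x : ℕ => 2 * x := mul_right_injective₀ two_ne_zero
    rcases Nat.eq_zero_or_pos n with rfl | hn
    · exact ⟨∅, by simp, by simp, by simp⟩
    by_cases hev : 2 ∣ n
    · obtain ⟨m, rfl⟩ := hev
      obtain ⟨s, hs, hanti, hsum⟩ := ih m (by omega)
      refine ⟨s.image (2 * ·), fun x hx => ?_, fun x hx y hy hxy => ?_, ?_⟩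
      · obtain ⟨z, hz, rfl⟩ := mem_image.1 hx
        obtain ⟨a, b, rfl⟩ := hs z hz
        exact ⟨a + 1, b, by ring⟩
      · obtain ⟨z, hz, rfl⟩ := mem_image.1 hx
        obtain ⟨w, hw, rfl⟩ := mem_image.1 hy
        rw [hanti z hz w hw (Nat.dvd_of_mul_dvd_mul_left two_pos hxy)]
      · rw [sum_image hinj.injOn, ← mul_sum, hsum]
    · obtain ⟨k, hk⟩ : ∃ k, k = Nat.log 3 n := ⟨_, rfl⟩
      have h1 : 3 ^ k ≤ n := hk ▸ Nat.pow_log_le_self 3 hn.ne'
      have h2 : n < 3 ^ (k + 1) := hk ▸ Nat.lt_pow_succ_log_self (by norm_num) n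
      have hodd : ¬2 ∣ 3 ^ k := by
        have : 3 ^ k % 2 = 1 := by simp [Nat.pow_mod]
        omega
      rw [pow_succ] at h2
      have hpos : 0 < 3 ^ k := pow_pos (by norm_num) k
      obtain ⟨s, hs, hanti, hsum⟩ := ih ((n - 3 ^ k) / 2) (by omega)
      have hsmall : ∀ x ∈ s, x < 3 ^ k := fun x hx => by
        have := single_le_sum (f := fun y => y) (fun y _ => Nat.zero_le y) hx
        omega
      have hcop : Nat.Coprime (3 ^ k) 2 := Nat.Coprime.pow_left k (by decide)
      have hnot : ∀ x ∈ s, ¬3 ^ k ∣ 2 * x ∧ ¬2 * x ∣ 3 ^ k := fun x hx => by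
        refine ⟨fun h => ?_, fun h => hodd ((dvd_mul_right 2 x).trans h)⟩
        obtain ⟨a, b, rfl⟩ := hs x hx
        exact absurd (Nat.le_of_dvd (by positivity) (hcop.dvd_of_dvd_mul_left h))
          (not_le.2 (hsmall _ hx))
      have hnm : 3 ^ k ∉ s.image (2 * ·) := fun h => by
        obtain ⟨z, hz, he⟩ := mem_image.1 h
        exact (hnot z hz).1 (he ▸ dvd_rfl)
      refine ⟨insert (3 ^ k) (s.image (2 * ·)), fun x hx => ?_, fun x hx y hy hxy => ?_, ?_⟩
      · rcases mem_insert.1 hx with rfl | h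
        · exact ⟨0, k, by simp⟩
        · obtain ⟨z, hz, rfl⟩ := mem_image.1 h
          obtain ⟨a, b, rfl⟩ := hs z hz
          exact ⟨a + 1, b, by ring⟩
      · rcases mem_insert.1 hx with rfl | h <;> rcases mem_insert.1 hy with rfl | h'
        · rfl
        · obtain ⟨w, hw, rfl⟩ := mem_image.1 h'
          exact absurd hxy (hnot w hw).1
        · obtain ⟨z, hz, rfl⟩ := mem_image.1 h
          exact absurd hxy (hnot z hz).2
        · obtain ⟨z, hz, rfl⟩ := mem_image.1 h
          obtain ⟨w, hw, rfl⟩ := mem_image.1 h'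
          rw [hanti z hz w hw (Nat.dvd_of_mul_dvd_mul_left two_pos hxy)]
      · rw [sum_insert hnm, sum_image hinj.injOn, ← mul_sum, hsum]
        omega

end FA.BirchComplete
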